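import Fermat.Agent.Ribet.H884.SlopeSpec

/-!
# Row 38, WALL-p, MOD-p leaves REDEX + REDUNIQ of `Ribet/H884/SlopeSpec.lean` (helper997)

* `redExists : H884.RedExistsStatement` — reductions exist on both components;
* `redUnique : H884.RedUniqueStatement` — a reduction is nonzero and unique up to `kˣ`.

Reusable: `isRedInf_ne_zero`, `isRedInf_unique` (the elementwise forms), `isRedInf_of_normal_form`,
`exists_isRedInf`.
-/

set_option autoImplicit false
set_option linter.unusedSectionVars false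
set_option synthInstance.maxHeartbeats 400000
set_option maxHeartbeats 1000000

noncomputable section

namespace Fermat.Agent.Ribet.H997

open AlgebraicCurve ModularCurve HahnSeries
open Fermat.Agent.S24 Fermat.Agent.A2.H708 Fermat.Agent.A2.H528
open Fermat.Agent.Ribet.H884

section

variable {N : ℕ} [NeZero N] {A : ValuationSubring Kbar}

/-- A reduction is nonzero. -/
theorem isRedInf_ne_zero {f : FF N} {r : LaurentSeries (kA A)} (h : IsRedInf N A f r) :
    r ≠ 0 := by
  obtain ⟨c, U₁, U₂, -, h₁, -, -, hr⟩ := h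
  rintro rfl
  rw [zero_mul] at hr
  exact h₁ hr.symm

/-- The function of a reduction is nonzero. -/
theorem ne_zero_of_isRedInf {f : FF N} {r : LaurentSeries (kA A)} (h : IsRedInf N A f r) :
    f ≠ 0 := by
  obtain ⟨c, U₁, U₂, hc, h₁, -, he, -⟩ := h
  rintro rfl
  have h0 : ((0 : FF N) : LaurentSeries Kbar) = 0 := rfl
  rw [h0, zero_mul] at he
  rcases mul_eq_zero.mp he.symm with h | h
  · exact cst_ne_zero hc h
  · exact incl_ne_zero A (ne_zero_of_red_ne_zero A h₁) h

/-- Two normal forms of the same series: the constants differ by a unit of `A` and the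
reductions by its residue. -/
theorem normal_form_unique {x : LaurentSeries Kbar} {c c' : Kbar}
    {U₁ U₂ U₁' U₂' : LaurentSeries A} (_hc : c ≠ 0) (hc' : c' ≠ 0)
    (h₁ : red A U₁ ≠ 0) (h₂ : red A U₂ ≠ 0) (h₁' : red A U₁' ≠ 0) (h₂' : red A U₂' ≠ 0)
    (he : x * incl A U₂ = cst c * incl A U₁) (he' : x * incl A U₂' = cst c' * incl A U₁')
    {r r' : LaurentSeries (kA A)} (hr : r * red A U₂ = red A U₁)
    (hr' : r' * red A U₂' = red A U₁') :
    ∃ u : kA A, u ≠ 0 ∧ r' = HahnSeries.C u * r := by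
  -- cross-multiplication
  have hx : cst c * incl A (U₁ * U₂') = cst c' * incl A (U₁' * U₂) := by
    rw [map_mul, map_mul, ← mul_assoc, ← he, ← mul_assoc, ← he']
    ring
  have hd : cst (c'⁻¹ * c) * incl A (U₁ * U₂') = incl A (U₁' * U₂) := by
    rw [cst_mul, mul_assoc, hx, ← mul_assoc, cst_inv_mul_cst hc', one_mul]
  have hprim : red A (U₁ * U₂') ≠ 0 := by rw [map_mul]; exact mul_ne_zero h₁ h₂'
  have hprim' : red A (U₁' * U₂) ≠ 0 := by rw [map_mul]; exact mul_ne_zero h₁' h₂
  have hdA : c'⁻¹ * c ∈ A := mem_of_cst_mul_prim A hprim hd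
  -- the constant as an element of `A`
  set d : A := ⟨c'⁻¹ * c, hdA⟩ with hd_def
  have hdU : incl A (cstA A d * (U₁ * U₂')) = incl A (U₁' * U₂) := by
    rw [map_mul (incl A), incl_cstA]
    exact hd
  have hdU' : cstA A d * (U₁ * U₂') = U₁' * U₂ := incl_injective A hdU
  have hred := congrArg (red A) hdU'
  rw [map_mul, red_cstA, map_mul, map_mul, ← HahnSeries.C_apply] at hred
  refine ⟨IsLocalRing.residue A d, ?_, ?_⟩
  · intro h0
    rw [h0] at hred
    apply hprim'
    rw [map_mul, ← hred]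
    simp
  · -- `r' Ū₂' Ū₂ = Ū₁' Ū₂ = ū Ū₁ Ū₂' = ū r Ū₂ Ū₂'`
    have hne : red A U₂ * red A U₂' ≠ 0 := mul_ne_zero h₂ h₂'
    apply mul_right_cancel₀ hne
    calc r' * (red A U₂ * red A U₂') = (r' * red A U₂') * red A U₂ := by ring
      _ = red A U₁' * red A U₂ := by rw [hr']
      _ = _ := hred.symm
      _ = HahnSeries.C (IsLocalRing.residue A d) * ((r * red A U₂) * red A U₂') := by rw [hr]
      _ = HahnSeries.C (IsLocalRing.residue A d) * r * (red A U₂ * red A U₂') := by ring

/-- **REDUNIQ**, elementwise. -/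
theorem isRedInf_unique {f : FF N} {r r' : LaurentSeries (kA A)} (h : IsRedInf N A f r)
    (h' : IsRedInf N A f r') : ∃ u : kA A, u ≠ 0 ∧ r' = HahnSeries.C u * r := by
  obtain ⟨c, U₁, U₂, hc, h₁, h₂, he, hr⟩ := h
  obtain ⟨c', U₁', U₂', hc', h₁', h₂', he', hr'⟩ := h'
  exact normal_form_unique hc hc' h₁ h₂ h₁' h₂' he he' hr hr'

/-- A normal form gives a reduction. -/
theorem isRedInf_of_normal_form {f : FF N} {c : Kbar} {U₁ U₂ : LaurentSeries A} (hc : c ≠ 0)
    (h₁ : red A U₁ ≠ 0) (h₂ : red A U₂ ≠ 0)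
    (he : (f : LaurentSeries Kbar) * incl A U₂ = cst c * incl A U₁) :
    IsRedInf N A f (red A U₁ * (red A U₂)⁻¹) :=
  ⟨c, U₁, U₂, hc, h₁, h₂, he, by rw [mul_assoc, inv_mul_cancel₀ h₂, mul_one]⟩

/-- **REDEX**, elementwise, with the normal form inside the function field. -/
theorem exists_isRedInf {p : ℕ} (hp : p.Prime) (hA : A.LiesOverPrime p) {f : FF N}
    (hf : f ≠ 0) : ∃ r : LaurentSeries (kA A), IsRedInf N A f r := by
  have hf0 : (f : LaurentSeries Kbar) ≠ 0 := fun h => hf (Subtype.ext h)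
  obtain ⟨c, U₁, U₂, hc, h₁, h₂, -, -, he⟩ :=
    exists_normal_form (A := A) (intGen_full N)
      (attainsMax_Qbar hp.ne_zero hA (modularFunctionFieldFull N)) f.2 hf0
  exact ⟨_, isRedInf_of_normal_form hc h₁ h₂ he⟩

end

/-- **REDEX**: every nonzero function has a reduction on each component. -/
theorem redExists : RedExistsStatement := by
  intro p N _ hp A hA f hf
  refine ⟨exists_isRedInf hp hA hf, ?_⟩
  have hw : wF N f ≠ 0 := by
    intro h
    apply hf
    have := congrArg (wF N).symm h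
    simpa using this
  exact exists_isRedInf hp hA hw

/-- **REDUNIQ**: a reduction is nonzero and unique up to a nonzero constant of `k`. -/
theorem redUnique : RedUniqueStatement := by
  intro p N _ hp A hA f r r' h h'
  exact ⟨isRedInf_ne_zero h, isRedInf_unique h h'⟩

end Fermat.Agent.Ribet.H997

end
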