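import Fermat.Agent.Ribet.H997.RedBasic
import Fermat.Agent.A2.Mod.H378.L11
import Fermat.Agent.A2.Mod.H553.Vinf
import Fermat.Agent.A2.IF.H429.IF
import Fermat.Agent.A2.T1.H669.T1Core
import Fermat.Agent.S37.H568.ValueGroup
import Fermat.Agent.S37.H98.Gen

/-!
# Row 38, WALL-p, MOD-p leaf REDFIELD of `Ribet/H884/SlopeSpec.lean` (helper997)

`redField : H884.RedFieldStatement` — every reduction (on `C∞` or on `C₀`) of a function of level
`p·M'` lies in `k(X₀(M')) = modularFunctionFieldFullC k M'`.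

Route: descend `f` to a good level `E` (`A2.T1.H669.exists_finset_descent`,
`A2.IF.H429.exists_goodField`), where `R_E = A ∩ E` is a discrete valuation ring; there
`f = c · u`, `u` a unit of `V∞`, and A2's leaf L11 (`A2.Mod.H378.resInf`) gives `g ∈ V∞_{M'}` with
`u ≡ α g mod w`; so `f` and `g` have THE SAME reduction (`exists_common_red`).  At level `M'`
(`p ∤ M'`) every reduction lies in `k(X₀(M'))` by S37's value-group theorem
(`S37.H568.valueGroupHyp_modular`, from Igusa `S28.CoreData`).  Uniqueness of reductions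
(`RedBasic.normal_form_unique`) concludes.
-/

set_option autoImplicit false
set_option linter.unusedSectionVars false
set_option linter.style.haveILetI false
set_option synthInstance.maxHeartbeats 400000
set_option maxHeartbeats 1600000

noncomputable section

namespace Fermat.Agent.Ribet.H997

open AlgebraicCurve ModularCurve HahnSeries
open Fermat.Agent.S24 Fermat.Agent.A2.H708 Fermat.Agent.A2.H528
open Fermat.Agent.Ribet.H884

/-- `r` is a reduction of the series `x` (normal form over `A`). -/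
def IsRedSer (A : ValuationSubring Kbar) (x : LaurentSeries Kbar)
    (r : LaurentSeries (kA A)) : Prop :=
  ∃ (c : Kbar) (U₁ U₂ : LaurentSeries A), c ≠ 0 ∧ red A U₁ ≠ 0 ∧ red A U₂ ≠ 0 ∧
    x * incl A U₂ = cst c * incl A U₁ ∧ r * red A U₂ = red A U₁

theorem isRedInf_iff_isRedSer {N : ℕ} [NeZero N] {A : ValuationSubring Kbar} {f : FF N}
    {r : LaurentSeries (kA A)} : IsRedInf N A f r ↔ IsRedSer A (f : LaurentSeries Kbar) r :=
  Iff.rfl

theorem IsRedSer.unique {A : ValuationSubring Kbar} {x : LaurentSeries Kbar}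
    {r r' : LaurentSeries (kA A)} (h : IsRedSer A x r) (h' : IsRedSer A x r') :
    ∃ u : kA A, u ≠ 0 ∧ r' = HahnSeries.C u * r := by
  obtain ⟨c, U₁, U₂, hc, h₁, h₂, he, hr⟩ := h
  obtain ⟨c', U₁', U₂', hc', h₁', h₂', he', hr'⟩ := h'
  exact normal_form_unique hc hc' h₁ h₂ h₁' h₂' he he' hr hr'

theorem IsRedSer.ne_zero {A : ValuationSubring Kbar} {x : LaurentSeries Kbar}
    {r : LaurentSeries (kA A)} (h : IsRedSer A x r) : x ≠ 0 := by
  obtain ⟨c, U₁, U₂, hc, h₁, -, he, -⟩ := h
  rintro rfl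
  rw [zero_mul] at he
  rcases mul_eq_zero.mp he.symm with h | h
  · exact cst_ne_zero hc h
  · exact incl_ne_zero A (ne_zero_of_red_ne_zero A h₁) h

/-- constants of `k` lie in `k(X₀(M))`. -/
theorem C_mem_fullC (k : Type) [Field k] (M : ℕ) (u : k) :
    HahnSeries.C u ∈ modularFunctionFieldFullC k M := by
  have h := (modularFunctionFieldFullC k M).algebraMap_mem u
  rwa [algebraMap_laurentSeries_eq_single] at h

/-! ## Level `M`, `p ∤ M` (good reduction) -/

/-- **Good level**: every reduction of a function of level `M`, `p ∤ M`, lies in `k(X₀(M))`. -/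
theorem isRedSer_mem_of_good {M p : ℕ} [NeZero M] (hp : p.Prime) (hpM : ¬ p ∣ M)
    {A : ValuationSubring Kbar} (hA : A.LiesOverPrime p) {x : LaurentSeries Kbar}
    (hx : x ∈ modularFunctionFieldBar M) {r : LaurentSeries (kA A)} (h : IsRedSer A x r) :
    r ∈ modularFunctionFieldFullC (kA A) M := by
  have hx0 : x ≠ 0 := h.ne_zero
  have hVG := Fermat.Agent.S37.H568.valueGroupHyp_modular (N := M) (A := A)
    (Fermat.Agent.S37.H98.coreData_residueField M p hp hpM A hA)
  obtain ⟨c', hc', y₁, y₂, hy₁, hy₂, hfy⟩ :=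
    hVG ⟨x, hx⟩ (fun h0 => hx0 (congrArg Subtype.val h0))
  have e₁ := Fermat.Agent.S37.H940.coeffMap_series A (IsLocalRing.residue A)
    (modularFunctionFieldBar M) (modularFunctionFieldFullC (IsLocalRing.ResidueField A) M) y₁
  have e₂ := Fermat.Agent.S37.H940.coeffMap_series A (IsLocalRing.residue A)
    (modularFunctionFieldBar M) (modularFunctionFieldFullC (IsLocalRing.ResidueField A) M) y₂
  have hm₁ := Fermat.Agent.S37.H940.coeffMap_series_mem A (IsLocalRing.residue A)
    (modularFunctionFieldBar M) (modularFunctionFieldFullC (IsLocalRing.ResidueField A) M) y₁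
  have hm₂ := Fermat.Agent.S37.H940.coeffMap_series_mem A (IsLocalRing.residue A)
    (modularFunctionFieldBar M) (modularFunctionFieldFullC (IsLocalRing.ResidueField A) M) y₂
  generalize Fermat.Agent.S37.H940.series A (IsLocalRing.residue A)
    (modularFunctionFieldBar M) (modularFunctionFieldFullC (IsLocalRing.ResidueField A) M) y₁
    = Y₁ at e₁ hm₁
  generalize Fermat.Agent.S37.H940.series A (IsLocalRing.residue A)
    (modularFunctionFieldBar M) (modularFunctionFieldFullC (IsLocalRing.ResidueField A) M) y₂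
    = Y₂ at e₂ hm₂
  have hr₁ : red A Y₁ ≠ 0 := by
    intro h0
    apply hy₁
    apply Subtype.ext
    rw [Fermat.Agent.S37.H940.coe_redQ A (IsLocalRing.residue A) _ _ y₁ e₁]
    exact h0
  have hr₂ : red A Y₂ ≠ 0 := by
    intro h0
    apply hy₂
    apply Subtype.ext
    rw [Fermat.Agent.S37.H940.coe_redQ A (IsLocalRing.residue A) _ _ y₂ e₂]
    exact h0
  have he' : x * incl A Y₂ = cst c' * incl A Y₁ := by
    have h1 := congrArg Subtype.val hfy
    show x * coeffMap A.subtype Y₂ = cst c' * coeffMap A.subtype Y₁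
    rw [e₁, e₂]
    exact h1
  have h0 : IsRedSer A x (red A Y₁ * (red A Y₂)⁻¹) :=
    ⟨c', Y₁, Y₂, hc', hr₁, hr₂, he', by rw [mul_assoc, inv_mul_cancel₀ hr₂, mul_one]⟩
  obtain ⟨u, -, hu⟩ := h0.unique h
  rw [hu]
  exact mul_mem (C_mem_fullC _ M u) (mul_mem hm₁ (inv_mem hm₂))

/-! ## Level `M·p`: a function of level `M` with the same reduction -/

section Descent

open Fermat.Agent.A2 Fermat.Agent.A2.Mod Fermat.Agent.S18.H602

variable {M p : ℕ} [NeZero M] [NeZero p] {A : ValuationSubring Kbar}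

/-- the inclusion `R_E = A ∩ E → A`. -/
def toA' (A : ValuationSubring Kbar) (E : IntermediateField ℚ Kbar) : ↥(Mod.RE A E) →+* ↥A where
  toFun x := ⟨algebraMap E Kbar (x : E), x.2⟩
  map_one' := Subtype.ext (map_one _)
  map_mul' _ _ := Subtype.ext (map_mul _ _ _)
  map_zero' := Subtype.ext (map_zero _)
  map_add' _ _ := Subtype.ext (map_add _ _ _)

theorem coe_toA' (E : IntermediateField ℚ Kbar) (x : Mod.RE A E) :
    ((toA' A E x : A) : Kbar) = algebraMap E Kbar (x : E) := rfl

theorem isUnit_toA'_iff (E : IntermediateField ℚ Kbar) (a : Mod.RE A E) :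
    IsUnit (toA' A E a) ↔ IsUnit a := by
  constructor
  · intro ha
    obtain ⟨b, hb⟩ := isUnit_iff_exists_inv.mp ha
    have hb' : algebraMap E Kbar (a : E) * (b : Kbar) = 1 := congrArg (fun z : A => (z : Kbar)) hb
    have ha0 : (a : E) ≠ 0 := by
      rintro h0
      rw [h0, map_zero, zero_mul] at hb'
      exact zero_ne_one hb'
    have hinv : ((a : E)⁻¹ : E) ∈ Mod.RE A E := by
      show algebraMap E Kbar ((a : E)⁻¹) ∈ A
      have : algebraMap E Kbar ((a : E)⁻¹) = (b : Kbar) := by
        rw [map_inv₀]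
        exact inv_eq_of_mul_eq_one_right hb'
      rw [this]
      exact b.2
    exact isUnit_iff_exists_inv.mpr ⟨⟨(a : E)⁻¹, hinv⟩, Subtype.ext (mul_inv_cancel₀ ha0)⟩
  · intro ha
    exact ha.map (toA' A E)

/-- transport of integral series from `R_E = A ∩ E` to `A`. -/
abbrev upA (A : ValuationSubring Kbar) (E : IntermediateField ℚ Kbar) :
    LaurentSeries (Mod.RE A E) →+* LaurentSeries A :=
  coeffMap (toA' A E)

theorem incl_upA (E : IntermediateField ℚ Kbar) (U : LaurentSeries (Mod.RE A E)) :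
    incl A (upA A E U) = coeffMap (algebraMap E Kbar) (incl (Mod.RE A E) U) := by
  ext n
  simp only [coeffMap_coeff]
  rfl

theorem upA_cstA (E : IntermediateField ℚ Kbar) (a : Mod.RE A E) :
    upA A E (cstA (Mod.RE A E) a) = cstA A (toA' A E a) := by
  rw [cstA, cstA, coeffMap_single]

theorem residue_eq_zero_iff_not_isUnit' {R : Type*} [CommRing R] [IsLocalRing R] (a : R) :
    IsLocalRing.residue R a = 0 ↔ ¬ IsUnit a := by
  rw [IsLocalRing.residue_eq_zero_iff, IsLocalRing.mem_maximalIdeal, mem_nonunits_iff]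

theorem red_upA_eq_zero_iff (E : IntermediateField ℚ Kbar) (U : LaurentSeries (Mod.RE A E)) :
    red A (upA A E U) = 0 ↔ red (Mod.RE A E) U = 0 := by
  constructor
  · intro h
    ext n
    have h1 := congrArg (fun z => z.coeff n) h
    simp only [coeffMap_coeff, HahnSeries.coeff_zero] at h1 ⊢
    rw [residue_eq_zero_iff_not_isUnit'] at h1 ⊢
    rwa [isUnit_toA'_iff] at h1
  · intro h
    ext n
    have h1 := congrArg (fun z => z.coeff n) h
    simp only [coeffMap_coeff, HahnSeries.coeff_zero] at h1 ⊢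
    rw [residue_eq_zero_iff_not_isUnit'] at h1 ⊢
    rwa [isUnit_toA'_iff]

theorem red_upA_ne_zero (E : IntermediateField ℚ Kbar) {U : LaurentSeries (Mod.RE A E)}
    (h : red (Mod.RE A E) U ≠ 0) : red A (upA A E U) ≠ 0 :=
  fun h0 => h ((red_upA_eq_zero_iff E U).mp h0)

/-- **Residue degree one, `ℚ̄`-form.**  A nonzero function of level `M·p` has the same reduction
on `C∞` as some function of level `M`. -/
theorem exists_common_red (hp : p.Prime) (hpM : ¬ p ∣ M) (hA : A.LiesOverPrime p)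
    {x : LaurentSeries Kbar} (hx : x ∈ modularFunctionFieldBar (M * p)) (hx0 : x ≠ 0) :
    ∃ (r : LaurentSeries (kA A)) (g : LaurentSeries Kbar),
      g ∈ modularFunctionFieldBar M ∧ IsRedSer A x r ∧ IsRedSer A g r := by
  classical
  obtain ⟨S, hS⟩ := Fermat.Agent.A2.T1.H669.exists_finset_descent
    (modularFunctionFieldFull (M * p)) ⟨x, hx⟩
  obtain ⟨E, hSE, hgood⟩ := Fermat.Agent.A2.IF.H429.exists_goodField p hp A hA S
  obtain ⟨y, hy⟩ := hS E hSE
  have hyx : coeffMap (algebraMap E Kbar) (y : LaurentSeries E) = x := congrArg Subtype.val hy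
  haveI hdvr : IsDiscreteValuationRing (Mod.RE A E) := hgood.dvr
  obtain ⟨w, hw⟩ := IsDiscreteValuationRing.exists_irreducible (Mod.RE A E)
  have hMp : M * p ≠ 0 := Nat.mul_ne_zero (NeZero.ne M) hp.ne_zero
  have hSet : Mod.Setting A E M p w := ⟨hp, hpM, NeZero.ne M, hA, hdvr, hw⟩
  obtain ⟨VM, hVM⟩ := Mod.H553.vinfExists (P := A) (E := E) M (NeZero.ne M) hdvr
  obtain ⟨V, hV⟩ := Mod.H553.vinfExists (P := A) (E := E) (M * p) hMp hdvr
  have hy0 : (y : LaurentSeries E) ≠ 0 := by
    intro h0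
    apply hx0
    rw [← hyx, h0, map_zero]
  obtain ⟨c, U₁, U₂, hc, h₁, h₂, hm₁, hm₂, he⟩ :=
    exists_normal_form (A := Mod.RE A E) (intGen_full (M * p))
      (attainsMax_of_isNoetherianRing (Mod.RE A E) (modularFunctionFieldFull (M * p))) y.2 hy0
  -- the unit `u = y / c`
  set u : Mod.FE E (M * p) := y * (algebraMap E (Mod.FE E (M * p)) c)⁻¹ with hu
  have hu_coe : (u : LaurentSeries E) = (y : LaurentSeries E) * (cst c)⁻¹ := by
    rw [hu, IntermediateField.coe_mul, IntermediateField.coe_inv]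
    rfl
  have hu_ser : (u : LaurentSeries E) * incl (Mod.RE A E) U₂ = incl (Mod.RE A E) U₁ := by
    rw [hu_coe, mul_right_comm, he, mul_right_comm, mul_inv_cancel₀ (cst_ne_zero hc), one_mul]
  have huV : u ∈ V := (hV u).mpr ⟨U₁, U₂, h₂, hm₂, hu_ser⟩
  obtain ⟨g, hgVM, hcong⟩ := Mod.H378.resInf A E M p w hSet VM V hVM hV u huV
  obtain ⟨G₁, G₂, hG₂, hmG₂, heG⟩ := (hVM g).mp hgVM
  obtain ⟨W₁, W₂, hW₂, hmW₂, heW⟩ := (hV _).mp hcong
  have hw0 : (w : E) ≠ 0 := fun h => hw.ne_zero (Subtype.ext h)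
  -- the congruence on series
  have hcoe : (((u - Mod.αE E M p g) * (Mod.cE A E (M * p) w)⁻¹ : Mod.FE E (M * p)) :
      LaurentSeries E) = ((u : LaurentSeries E) - (g : LaurentSeries E)) * (cst (w : E))⁻¹ := by
    rfl
  rw [hcoe] at heW
  have h1 : ((u : LaurentSeries E) - (g : LaurentSeries E)) * incl (Mod.RE A E) W₂ =
      cst (w : E) * incl (Mod.RE A E) W₁ := by
    rw [← heW]
    have hne : cst (w : E) ≠ 0 := cst_ne_zero hw0
    field_simp
  have key : incl (Mod.RE A E) ((U₁ * G₂ - G₁ * U₂) * W₂) =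
      incl (Mod.RE A E) (cstA (Mod.RE A E) w * (W₁ * U₂ * G₂)) := by
    simp only [map_mul, map_sub, incl_cstA]
    rw [← hu_ser, ← heG]
    linear_combination (incl (Mod.RE A E) U₂ * incl (Mod.RE A E) G₂) * h1
  have hRE := incl_injective (Mod.RE A E) key
  have hAA := congrArg (fun z => red A (upA A E z)) hRE
  simp only [map_mul, map_sub] at hAA
  have hrw : red A (upA A E (cstA (Mod.RE A E) w)) = 0 := by
    rw [upA_cstA, red_cstA]
    have : IsLocalRing.residue A (toA' A E w) = 0 := by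
      rw [residue_eq_zero_iff_not_isUnit', isUnit_toA'_iff]
      exact hw.not_isUnit
    rw [this, map_zero]
  rw [hrw, zero_mul] at hAA
  have hW₂A := red_upA_ne_zero E hW₂
  have hstarA : red A (upA A E U₁) * red A (upA A E G₂) =
      red A (upA A E G₁) * red A (upA A E U₂) := by
    rcases mul_eq_zero.mp hAA with h | h
    · exact sub_eq_zero.mp h
    · exact absurd h hW₂A
  have h₁A := red_upA_ne_zero E h₁
  have h₂A := red_upA_ne_zero E h₂
  have hG₂A := red_upA_ne_zero E hG₂
  have hG₁A : red A (upA A E G₁) ≠ 0 := by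
    intro h0
    rw [h0, zero_mul] at hstarA
    exact mul_ne_zero h₁A hG₂A hstarA
  have hcK : (algebraMap E Kbar c) ≠ 0 := by
    rwa [Ne, map_eq_zero_iff _ (algebraMap E Kbar).injective]
  refine ⟨red A (upA A E U₁) * (red A (upA A E U₂))⁻¹,
    coeffMap (algebraMap E Kbar) (g : LaurentSeries E),
    coeffMap_mem_laurentBaseChange (modularFunctionFieldFull M) _ g.2, ?_, ?_⟩
  · refine ⟨algebraMap E Kbar c, upA A E U₁, upA A E U₂, hcK, h₁A, h₂A, ?_,
      by rw [mul_assoc, inv_mul_cancel₀ h₂A, mul_one]⟩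
    have := congrArg (coeffMap (algebraMap E Kbar)) he
    rw [map_mul, map_mul, hyx, coeffMap_algebraMap', ← incl_upA, ← incl_upA] at this
    exact this
  · refine ⟨1, upA A E G₁, upA A E G₂, one_ne_zero, hG₁A, hG₂A, ?_, ?_⟩
    · have := congrArg (coeffMap (algebraMap E Kbar)) heG
      rw [map_mul, ← incl_upA, ← incl_upA] at this
      rw [this, cst_one, one_mul]
    · rw [mul_right_comm, hstarA, mul_assoc, mul_inv_cancel₀ h₂A, mul_one]

/-- every reduction of a function of level `M·p` lies in `k(X₀(M))`. -/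
theorem isRedSer_mem_of_level_mul (hp : p.Prime) (hpM : ¬ p ∣ M) (hA : A.LiesOverPrime p)
    {x : LaurentSeries Kbar} (hx : x ∈ modularFunctionFieldBar (M * p))
    {r : LaurentSeries (kA A)} (h : IsRedSer A x r) :
    r ∈ modularFunctionFieldFullC (kA A) M := by
  obtain ⟨r₀, g, hg, hxr, hgr⟩ := exists_common_red hp hpM hA hx h.ne_zero
  have h0 := isRedSer_mem_of_good hp hpM hA hg hgr
  obtain ⟨u, -, hu⟩ := hxr.unique h
  rw [hu]
  exact mul_mem (C_mem_fullC _ M u) h0

end Descent

/-- **REDFIELD**: every reduction of a function of level `p·M'` lies in `k(X₀(M'))`. -/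
theorem redField : RedFieldStatement := by
  intro p M' _ _ _ hp hpM A hA f r h
  have hlev : ∀ (N N' : ℕ), N = N' → ∀ z : LaurentSeries Kbar,
      z ∈ modularFunctionFieldBar N → z ∈ modularFunctionFieldBar N' := by
    intro N N' hNN' z hz
    subst hNN'
    exact hz
  have hmem : ∀ g : FF (p * M'),
      (g : LaurentSeries Kbar) ∈ modularFunctionFieldBar (M' * p) :=
    fun g => hlev _ _ (Nat.mul_comm p M') _ g.2
  rcases h with h | h
  · exact ⟨⟨r, isRedSer_mem_of_level_mul hp hpM hA (hmem f) h⟩, rfl⟩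
  · exact ⟨⟨r, isRedSer_mem_of_level_mul hp hpM hA (hmem (wF (p * M') f)) h⟩, rfl⟩

end Fermat.Agent.Ribet.H997

end
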