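import Fermat.Agent.Ribet.H997.DictDesc
import Fermat.Agent.Ribet.H573.SplitLift
import Fermat.Agent.Ribet.H103.S2Spec
import Fermat.Agent.S35.G.H862.Model
import Fermat.Agent.A2.Mod.H751.Stau
import Fermat.Agent.A2.Mod.H13.Frame
import Fermat.Agent.A2.Alg.H609.PuritySmooth
import Fermat.Agent.Lib.HI.H864.Modular

/-!
# Row 38, WALL-p, S2 leaf DICT (helper997)

`dictFor : H103.S2.DictFor p M' A (H884.splitPart p M' A)` for `p ∤ M'`, `A` over `p`
(and `2 ∣ M'` if `p = 3`, `3 ∣ M'` if `p = 2`; no condition for `p ≥ 5`): the classes of the split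
part are split-reduction classes.

Route: `x ∈ 𝒮` has a Kummer generator `f` with `SplitGen` (`H884.mem_splitSet_of_mem_splitPart`);
on both components `f = g ^ p · u` with `u` of reduction `1` (`H573.splitGen_lift`); descend
`f`, the two `g` and `p`-th roots of the two constants to a good level `E`
(`T1.H669.exists_finset_descent`, `IF.H429.exists_goodField`); there the congruences hold at the
Gauss valuation rings `V∞`, `V₀ = V∞ ∘ W` (`DictDesc.sub_one_mem_nonunits_of_red`); normalise the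
valuations by a global `p`-th power (`DictVal.exists_gSplitV_pair_of_unit`) and make the residues
constant by weak approximation (`S35.H433.exists_constV_of_gSplitV`); on the standard model
(`A2.Mod`, coordinate `j · j_p`) this is `IsSplit` on both charts (`S35.H433.isSplit_of_constV`),
hence `RedPowAt` (with `g = 1`) and `PureAt` everywhere (`A2.Alg.H609.pureAt_of_isSplit`).
-/

set_option autoImplicit false
set_option linter.unusedSectionVars false
set_option linter.style.haveILetI false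
set_option synthInstance.maxHeartbeats 400000
set_option maxHeartbeats 1600000

noncomputable section

namespace Fermat.Agent.Ribet.H997

open AlgebraicCurve ModularCurve HahnSeries
open Fermat.Agent.S24 Fermat.Agent.A2.H708 Fermat.Agent.A2.H528
open Fermat.Agent.A2 Fermat.Agent.A2.Alg Fermat.Agent.S18.H602
open Fermat.Agent.Ribet.H884 Fermat.Agent.Ribet.H103.S2

/-! ## Gauss valuation rings satisfy `ValCtx` -/

section Gauss

variable {R F : Type*} [CommRing R] [IsLocalRing R] [Field F] [Algebra R F]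

open Polynomial in
/-- A valuation ring inducing the Gauss valuation on `R[x]` satisfies `S35.H433.ValCtx`. -/
theorem valCtx_of_gauss {w : R} (hw : w ∈ IsLocalRing.maximalIdeal R)
    (hw0 : algebraMap R F w ≠ 0) {x : F}
    {V : ValuationSubring F} (h : Fermat.Agent.A2.H489.IsGaussOver R V x) :
    Fermat.Agent.S35.H433.ValCtx w x V := by
  have hunit : ∀ P : R[X], P.map (IsLocalRing.residue R) ≠ 0 → (aeval x P)⁻¹ ∈ V := by
    intro P hP
    have h2 : aeval x P ∉ V.nonunits := fun hn => hP (h.prim P hn)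
    rw [ValuationSubring.mem_nonunits_iff_or] at h2
    push Not at h2
    exact h2.2
  have hX : (X : R[X]).map (IsLocalRing.residue R) ≠ 0 := by
    rw [Polynomial.map_X]
    exact X_ne_zero
  have hxi : x⁻¹ ∈ V := by
    have := hunit X hX
    rwa [aeval_X] at this
  refine ⟨h.isOver.mem, h.mem, hxi, ?_, ?_, ?_⟩
  · intro hwi
    have h1 := h.isOver.nonunit w hw
    rw [ValuationSubring.mem_nonunits_iff_or] at h1
    rcases h1 with h1 | h1
    · exact hw0 h1
    · exact h1 hwi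
  · intro r
    have hP : (X - Polynomial.C r : R[X]).map (IsLocalRing.residue R) ≠ 0 := by
      rw [Polynomial.map_sub, Polynomial.map_X, Polynomial.map_C]
      exact Polynomial.X_sub_C_ne_zero _
    have := hunit (X - Polynomial.C r) hP
    rwa [map_sub, aeval_X, aeval_C] at this
  · intro r
    have hP : (1 - Polynomial.C r * X : R[X]).map (IsLocalRing.residue R) ≠ 0 := by
      intro h0
      have := congrArg (fun p => Polynomial.coeff p 0) h0
      simp at this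
    have h1 := hunit (1 - Polynomial.C r * X) hP
    rw [map_sub, map_one, map_mul, aeval_X, aeval_C] at h1
    have hx0 : x ≠ 0 := by
      intro h0
      have h2 : aeval x (X : R[X]) ∈ V.nonunits := by
        rw [aeval_X, h0]
        exact V.mem_nonunits_iff.2 (by simp)
      exact hX (h.prim X h2)
    have e : (x⁻¹ - algebraMap R F r)⁻¹ = x * (1 - algebraMap R F r * x)⁻¹ := by
      have h3 : x⁻¹ - algebraMap R F r = (1 - algebraMap R F r * x) * x⁻¹ := by
        field_simp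
      rw [h3, mul_inv, inv_inv, mul_comm]
    rw [e]
    exact V.mul_mem _ _ h.mem h1

end Gauss

/-! ## Kummer generators modulo `p`-th powers -/

section Kummer

variable {N : ℕ} [NeZero N] {p : ℕ}

/-- Dividing a Kummer generator by a `p`-th power does not change the class. -/
theorem isKummerGen_mul_inv_pow {f h : FF N} {x : JZero N} (hf : IsKummerGen N p f x)
    (hh : h ≠ 0) : IsKummerGen N p (f * (h ^ p)⁻¹) x := by
  obtain ⟨hf0, D, hD, hord⟩ := hf
  obtain ⟨Dh, hDh, hdeg⟩ :=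
    (Fermat.Agent.Lib.HI.H864.hasPrincipalDivisors_FF N).exists_divisor h hh
  set Dh0 : Divisor.degZero (K := Kbar) (F := FF N) := ⟨Dh, hdeg⟩ with hDh0
  refine ⟨mul_ne_zero hf0 (inv_ne_zero (pow_ne_zero _ hh)), D - Dh0, ?_, fun v => ?_⟩
  · rw [← hD]
    show (QuotientAddGroup.mk (D - Dh0) : Pic0 Kbar (FF N)) = QuotientAddGroup.mk D
    rw [QuotientAddGroup.eq]
    refine AddSubgroup.mem_addSubgroupOf.mpr ⟨h, hh, fun v => ?_⟩
    simp only [AddSubgroup.coe_add, AddSubgroup.coe_neg, AddSubgroup.coe_sub, Finsupp.add_apply,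
      Finsupp.neg_apply, Finsupp.sub_apply, hDh0]
    rw [← hDh v]
    ring
  · rw [Place.ord_mul v hf0 (inv_ne_zero (pow_ne_zero _ hh)), Place.ord_inv, ← zpow_natCast,
      Place.ord_zpow, hord]
    simp only [AddSubgroup.coe_sub, Finsupp.sub_apply, hDh0]
    rw [hDh v]
    ring

end Kummer

/-! ## The standard model -/

section Model

variable (A : ValuationSubring Kbar) (E : IntermediateField ℚ Kbar) (M q : ℕ) [NeZero M]
  [NeZero q]

/-- **The standard semistable model** of level `M * q` over a good level, with coordinate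
`x = j · j_q` (`A2.Mod.modSSData_of_parts` with the coordinate kept). -/
theorem exists_modSSData (hq : q.Prime) (hqM : ¬ q ∣ M) (h3 : q = 3 → 2 ∣ M)
    (h2 : q = 2 → 3 ∣ M) (hA : A.LiesOverPrime q) (hdvr : IsDiscreteValuationRing (Mod.RE A E)) :
    ∃ D : ModSSData A E (M * q), D.x = Mod.xE E M q := by
  haveI := hdvr
  have hN : M * q ≠ 0 := mul_ne_zero (NeZero.ne M) hq.ne_zero
  obtain ⟨VM, hVM⟩ := Mod.H553.vinfExists A E M (NeZero.ne M) hdvr
  obtain ⟨V, hV⟩ := Mod.H553.vinfExists A E (M * q) hN hdvr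
  obtain ⟨W, hW⟩ := Mod.H751.frickeExists E (M * q) hN
  obtain ⟨hx, hfr, hconst⟩ := Mod.H31.deg E M q hq hqM
  have hS : ∀ w : Mod.RE A E, Irreducible w → Mod.Setting A E M q w := fun w hw =>
    { q_prime := hq
      q_not_dvd := hqM
      M_ne_zero := NeZero.ne M
      lies_over := hA
      dvr := hdvr
      unif := hw }
  have hgood : Mod.GoodRedHyp A E M := Mod.H216.goodRedHyp_of_dvr A E M hq hqM h3 h2 hA hdvr
  have hS1 := fun w => Fermat.Agent.S35.G.H862.s1 A E M q w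
  have hS2 := fun w => Mod.H142.s2 A E M q w
  have hS3 := fun w => Fermat.Agent.S35.G.H862.s3 A E M q w
  have hSτ := fun w => Mod.H751.stau_of_s1 A E M q w (hS1 w)
  obtain ⟨w₀, hw₀⟩ := IsDiscreteValuationRing.exists_irreducible (Mod.RE A E)
  have hpos : 0 < Module.finrank (IntermediateField.adjoin E ({Mod.xE E M q} : Set (Mod.FE E (M * q))))
      (Mod.FE E (M * q)) := by
    rw [hfr]
    have h1 := Mod.dedekindPsi_pos_of_ne_zero M (NeZero.ne M)
    positivity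
  have hfin : FiniteDimensional (IntermediateField.adjoin E ({Mod.xE E M q} : Set (Mod.FE E (M * q))))
      (Mod.FE E (M * q)) := Module.finite_of_finrank_pos hpos
  have hg₀ := hgood w₀ VM hw₀ hVM
  have hsep := Mod.H732.s4 A E M q w₀ (hS w₀ hw₀) VM hVM hg₀.1 hg₀.2
  exact ⟨{ x := Mod.xE E M q
           hx := hx
           hfin := hfin
           hconst := hconst
           Bf := Mod.chartAlg A E (M * q) (Mod.xE E M q)
           Bi := Mod.chartAlg A E (M * q) (Mod.xE E M q)⁻¹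
           hBf := fun _ => Iff.rfl
           hBi := fun _ => Iff.rfl
           cf := fun w hw => Mod.nonempty_ssChart A E M q w (hS w hw) (hS1 w) (hS2 w) (hS3 w)
             VM V W hVM hV hW _ _ (Or.inl ⟨rfl, rfl⟩) (hgood w VM hw hVM).1
           ci := fun w hw => Mod.nonempty_ssChart A E M q w (hS w hw) (hS1 w) (hS2 w) (hS3 w)
             VM V W hVM hV hW _ _ (Or.inr ⟨rfl, rfl⟩) (hgood w VM hw hVM).2
           sf := hsep.1
           si := hsep.2
           hτx := fun hE τ hτ => ((hSτ w₀) (hS w₀ hw₀) τ (hE.res τ hτ) hτ (fun _ => rfl)).1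
           hτf := fun hE τ hτ w hw b hb =>
             ((hSτ w) (hS w hw) τ (hE.res τ hτ) hτ (fun _ => rfl)).2 _ (Or.inl rfl) b hb
           hτi := fun hE τ hτ w hw b hb =>
             ((hSτ w) (hS w hw) τ (hE.res τ hτ) hτ (fun _ => rfl)).2 _ (Or.inr rfl) b hb }, rfl⟩

end Model

/-! ## The dictionary -/

/-- `H103.S2.SplitRedClass` at a general level `N` (`p ∣ N`); for `N = p * M'` it is
`H103.S2.SplitRedClass p M' A x` by definition. -/
def SplitRedClassAt (p N : ℕ) [NeZero p] (hpN : p ∣ N) (A : ValuationSubring Kbar)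
    (x : JZero N) : Prop :=
  ∃ (E : IntermediateField ℚ Kbar) (_ : GoodField A E) (D : ModSSData A E N)
    (w : A2.RE A E) (y : A2.FE E N) (cf : SSChart w D.Bf) (ci : SSChart w D.Bi),
    D.x = stdCoord E N p hpN ∧ Irreducible w ∧
    IsKummerFn N p x (T1.H669.iota E (modularFunctionFieldFull N) y) ∧
    RedPowAt D.Bf cf.p₁ p y ∧ RedPowAt D.Bf cf.p₂ p y ∧
    RedPowAt D.Bi ci.p₁ p y ∧ RedPowAt D.Bi ci.p₂ p y ∧
    (∀ n : Ideal D.Bf, n.IsMaximal → algebraMap (A2.RE A E) D.Bf w ∈ n → PureAt D.Bf cf p y n) ∧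
    (∀ n : Ideal D.Bi, n.IsMaximal → algebraMap (A2.RE A E) D.Bi w ∈ n → PureAt D.Bi ci p y n)

theorem splitRedClass_iff (p M' : ℕ) [NeZero p] (A : ValuationSubring Kbar)
    (x : JZero (p * M')) :
    SplitRedClass p M' A x ↔ SplitRedClassAt p (p * M') (dvd_mul_right p M') A x :=
  Iff.rfl

section Core

variable {p M' : ℕ} [NeZero M'] [NeZero p] {A : ValuationSubring Kbar}

/-- The series of `ι (y / (γ G) ^ p)`. -/
theorem coe_iota_div_pow {N : ℕ} (E : IntermediateField ℚ Kbar) (y G : Mod.FE E N) (e : E)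
    (f g : FF N) (c : Kbar)
    (hy : T1.H669.iota E (modularFunctionFieldFull N) y = f)
    (hG : T1.H669.iota E (modularFunctionFieldFull N) G = g)
    (he : (algebraMap E Kbar e) ^ p = c) (_hc : c ≠ 0) (_hg : g ≠ 0) :
    coeffMap (algebraMap E Kbar)
        ((y * ((algebraMap E (Mod.FE E N) e * G) ^ p)⁻¹ : Mod.FE E N) : LaurentSeries E) =
      ((f * (g ^ p)⁻¹ : FF N) : LaurentSeries Kbar) * (cst c)⁻¹ := by
  have h1 : T1.H669.iota E (modularFunctionFieldFull N)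
      (y * ((algebraMap E (Mod.FE E N) e * G) ^ p)⁻¹) =
      f * (g ^ p)⁻¹ * (algebraMap Kbar (FF N) c)⁻¹ := by
    rw [map_mul, map_inv₀, map_pow, map_mul, hy, hG, T1.H669.iota_algebraMap, mul_pow,
      ← map_pow, he, mul_inv, mul_assoc, mul_comm (algebraMap Kbar _ c)⁻¹]
  have h2 := congrArg (fun z : FF N => (z : LaurentSeries Kbar)) h1
  exact h2

/-- **DICT, core.**  A class with a Kummer generator which on both components is a `p`-th power
times a function of reduction `1` is a split-reduction class (level `N = M' * p`). -/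
theorem splitRedClassAt_of_lift (hp : p.Prime) (hpM : ¬ p ∣ M')
    (h3 : p = 3 → 2 ∣ M') (h2 : p = 2 → 3 ∣ M') (hA : A.LiesOverPrime p)
    (N : ℕ) [NeZero N] (hN : N = M' * p) (hpN : p ∣ N) (x : JZero N) (f : FF N)
    (hf : IsKummerGen N p f x)
    (hinf : ∃ g : FF N, g ≠ 0 ∧ IsRedInf N A (f * (g ^ p)⁻¹) 1)
    (hzer : ∃ g : FF N, g ≠ 0 ∧ IsRedZero N A (f * (g ^ p)⁻¹) 1) :
    SplitRedClassAt p N hpN A x := by
  classical
  subst hN
  obtain ⟨g₁, hg₁, c₁, U₁, U₂, hc₁, hU₁, hU₂, heU, hrU⟩ := hinf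
  obtain ⟨g₂, hg₂, c₂, T₁, T₂, hc₂, hT₁, hT₂, heT, hrT⟩ := hzer
  rw [one_mul] at hrU hrT
  obtain ⟨γ₁, hγ₁⟩ := IsAlgClosed.exists_pow_nat_eq c₁ hp.pos
  obtain ⟨γ₂, hγ₂⟩ := IsAlgClosed.exists_pow_nat_eq c₂ hp.pos
  -- descent to a good level
  obtain ⟨Sf, hSf⟩ := T1.H669.exists_finset_descent (modularFunctionFieldFull (M' * p)) f
  obtain ⟨S₁, hS₁⟩ := T1.H669.exists_finset_descent (modularFunctionFieldFull (M' * p)) g₁
  obtain ⟨S₂, hS₂⟩ := T1.H669.exists_finset_descent (modularFunctionFieldFull (M' * p)) g₂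
  obtain ⟨E, hSE, hE⟩ := IF.H429.exists_goodField p hp A hA (Sf ∪ S₁ ∪ S₂ ∪ {γ₁, γ₂})
  obtain ⟨y, hy⟩ := hSf E (fun s hs => hSE s (by simp [hs]))
  obtain ⟨G₁, hG₁⟩ := hS₁ E (fun s hs => hSE s (by simp [hs]))
  obtain ⟨G₂, hG₂⟩ := hS₂ E (fun s hs => hSE s (by simp [hs]))
  have hγ₁E : γ₁ ∈ E := hSE γ₁ (by simp)
  have hγ₂E : γ₂ ∈ E := hSE γ₂ (by simp)
  haveI hdvr : IsDiscreteValuationRing (Mod.RE A E) := hE.dvr
  haveI : HenselianLocalRing (Mod.RE A E) := hE.henselian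
  haveI : IsAlgClosed (IsLocalRing.ResidueField (Mod.RE A E)) := hE.algClosed
  obtain ⟨w, hw⟩ := IsDiscreteValuationRing.exists_irreducible (Mod.RE A E)
  have hL0 : M' * p ≠ 0 := Nat.mul_ne_zero (NeZero.ne M') hp.ne_zero
  have hSet : Mod.Setting A E M' p w := ⟨hp, hpM, NeZero.ne M', hA, hdvr, hw⟩
  obtain ⟨V, hV⟩ := Mod.H553.vinfExists A E (M' * p) hL0 hdvr
  obtain ⟨W, hW⟩ := Mod.H751.frickeExists E (M' * p) hL0
  set V₀ : ValuationSubring (Mod.FE E (M' * p)) :=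
    V.comap (W : Mod.FE E (M' * p) →+* Mod.FE E (M' * p)) with hV₀
  have hu : H48.IsUnif V (Mod.cE A E (M' * p) w) :=
    (Mod.H553.vinfBasic A E w (M' * p) hL0 hdvr hw V hV).1
  have hu₀ : H48.IsUnif V₀ (Mod.cE A E (M' * p) w) := Mod.H13.isUnif_comap hu W
  have hne : V ≠ V₀ := fun h =>
    Mod.H553.vzeroNe (P := A) (E := E) (M := M') (q := p) w hSet V W hV hW h.symm
  -- the `p`-th roots at level `E`
  set e₁ : E := ⟨γ₁, hγ₁E⟩ with he₁
  set e₂ : E := ⟨γ₂, hγ₂E⟩ with he₂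
  set P₁ : Mod.FE E (M' * p) := algebraMap E (Mod.FE E (M' * p)) e₁ * G₁ with hP₁
  set P₂ : Mod.FE E (M' * p) := algebraMap E (Mod.FE E (M' * p)) e₂ * G₂ with hP₂
  have hγ₁0 : γ₁ ≠ 0 := by
    rintro rfl
    rw [zero_pow hp.ne_zero] at hγ₁
    exact hc₁ hγ₁.symm
  have hγ₂0 : γ₂ ≠ 0 := by
    rintro rfl
    rw [zero_pow hp.ne_zero] at hγ₂
    exact hc₂ hγ₂.symm
  have hG₁0 : G₁ ≠ 0 := by
    rintro rfl
    rw [map_zero] at hG₁
    exact hg₁ hG₁.symm
  have hG₂0 : G₂ ≠ 0 := by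
    rintro rfl
    rw [map_zero] at hG₂
    exact hg₂ hG₂.symm
  have he₁0 : algebraMap E (Mod.FE E (M' * p)) e₁ ≠ 0 := by
    rw [Ne, map_eq_zero]
    exact fun h => hγ₁0 (congrArg Subtype.val h)
  have he₂0 : algebraMap E (Mod.FE E (M' * p)) e₂ ≠ 0 := by
    rw [Ne, map_eq_zero]
    exact fun h => hγ₂0 (congrArg Subtype.val h)
  have hP₁0 : P₁ ≠ 0 := mul_ne_zero he₁0 hG₁0
  have hP₂0 : P₂ ≠ 0 := mul_ne_zero he₂0 hG₂0
  -- the congruence at `V∞`
  have hz₁ : y * (P₁ ^ p)⁻¹ - 1 ∈ V.nonunits := by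
    refine sub_one_mem_nonunits_of_red hV hdvr _ hU₂ hrU.symm ?_
    rw [hP₁, coe_iota_div_pow E y G₁ e₁ f g₁ c₁ hy hG₁ hγ₁ hc₁ hg₁, mul_right_comm, heU,
      mul_right_comm, mul_inv_cancel₀ (cst_ne_zero hc₁), one_mul]
  -- the congruence at `V₀`
  have hz₂ : y * (P₂ ^ p)⁻¹ - 1 ∈ V₀.nonunits := by
    rw [hV₀, Mod.H13.mem_nonunits_comap]
    have hW1 : (W : Mod.FE E (M' * p) →+* Mod.FE E (M' * p)) (y * (P₂ ^ p)⁻¹ - 1) =
        W (y * (P₂ ^ p)⁻¹) - 1 := by
      rw [map_sub, map_one]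
      rfl
    rw [hW1]
    refine sub_one_mem_nonunits_of_red hV hdvr _ hT₂ hrT.symm ?_
    have h1 : coeffMap (algebraMap E Kbar)
        ((W (y * (P₂ ^ p)⁻¹) : Mod.FE E (M' * p)) : LaurentSeries E) =
        ((wF (M' * p) (f * (g₂ ^ p)⁻¹) : FF (M' * p)) : LaurentSeries Kbar) * (cst c₂)⁻¹ := by
      have h3 : Mod.H553.iotaN E (M' * p) (y * (P₂ ^ p)⁻¹) =
          f * (g₂ ^ p)⁻¹ * (algebraMap Kbar (FF (M' * p)) c₂)⁻¹ := by
        apply Subtype.ext
        exact coe_iota_div_pow E y G₂ e₂ f g₂ c₂ hy hG₂ hγ₂ hc₂ hg₂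
      have h4 : wF (M' * p) (f * (g₂ ^ p)⁻¹ * (algebraMap Kbar (FF (M' * p)) c₂)⁻¹) =
          wF (M' * p) (f * (g₂ ^ p)⁻¹) * (algebraMap Kbar (FF (M' * p)) c₂)⁻¹ := by
        rw [map_mul (wF (M' * p)), map_inv₀ (wF (M' * p)), AlgEquiv.commutes]
      have h2 : Mod.H553.iotaN E (M' * p) (W (y * (P₂ ^ p)⁻¹)) =
          wF (M' * p) (f * (g₂ ^ p)⁻¹) * (algebraMap Kbar (FF (M' * p)) c₂)⁻¹ :=
        (iotaN_fricke hW _).trans ((congrArg (wF (M' * p)) h3).trans h4)
      exact congrArg (fun z : FF (M' * p) => (z : LaurentSeries Kbar)) h2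
    rw [h1, mul_right_comm, heT, mul_right_comm, mul_inv_cancel₀ (cst_ne_zero hc₂), one_mul]
  -- discrete valuations of the roots
  obtain ⟨a, ha⟩ := exists_zpow_val hV hL0 hdvr hw P₁ hP₁0
  have hWP₂0 : W P₂ ≠ 0 := (map_ne_zero W).2 hP₂0
  obtain ⟨b, hb⟩ := exists_zpow_val hV hL0 hdvr hw (W P₂) hWP₂0
  have hϖ0 : V.valuation (Mod.cE A E (M' * p) w) ≠ 0 := hu.val_ne_zero
  have ha' : V.valuation (P₁ * (Mod.cE A E (M' * p) w ^ a)⁻¹) = 1 := by
    rw [map_mul, map_inv₀, map_zpow₀, ha]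
    exact mul_inv_cancel₀ (zpow_ne_zero _ hϖ0)
  have hb' : V₀.valuation (P₂ * (Mod.cE A E (M' * p) w ^ b)⁻¹) = 1 := by
    rw [hV₀, val_comap_eq_one_iff]
    have hWc : W (Mod.cE A E (M' * p) w) = Mod.cE A E (M' * p) w := W.commutes _
    have e : (W : Mod.FE E (M' * p) →+* Mod.FE E (M' * p))
        (P₂ * (Mod.cE A E (M' * p) w ^ b)⁻¹) = W P₂ * (Mod.cE A E (M' * p) w ^ b)⁻¹ := by
      show W (P₂ * (Mod.cE A E (M' * p) w ^ b)⁻¹) = _
      rw [map_mul, map_inv₀, map_zpow₀, hWc]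
    rw [e, map_mul, map_inv₀, map_zpow₀, hb]
    exact mul_inv_cancel₀ (zpow_ne_zero _ hϖ0)
  obtain ⟨H, hH0, hgs₁, hgs₂⟩ :=
    exists_gSplitV_pair_of_unit (Mod.RE A E) hu hu₀ hne p a b ha' hb' hz₁ hz₂
  -- the model
  obtain ⟨D, hDx⟩ := exists_modSSData A E M' p hp hpM h3 h2 hA hdvr
  obtain ⟨cf⟩ := D.cf w hw
  obtain ⟨ci⟩ := D.ci w hw
  have hCf : ChartCtx E w D.x D.Bf := ⟨hw, D.hx, D.hfin, D.hconst, D.hBf⟩
  have hCi : ChartCtx E w D.x⁻¹ D.Bi :=
    Alg.H34.chartCtx_inv w hw D.x D.hx D.hfin D.hconst D.Bi D.hBi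
  have hwm : w ∈ IsLocalRing.maximalIdeal (Mod.RE A E) :=
    (IsLocalRing.mem_maximalIdeal w).2 hw.not_isUnit
  have hw0 : algebraMap (Mod.RE A E) (Mod.FE E (M' * p)) w ≠ 0 := by
    intro h0
    have h1 : algebraMap E (Mod.FE E (M' * p)) (w : E) = 0 := h0
    rw [map_eq_zero] at h1
    exact hw.ne_zero (Subtype.ext h1)
  have hxtr : Transcendental E (Mod.xE E M' p) := hDx ▸ D.hx
  have hc₁ : Fermat.Agent.S35.H433.ValCtx w D.x V := by
    rw [hDx]
    exact valCtx_of_gauss hwm hw0 (Mod.H13.isGaussOver_xE hw hV hxtr)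
  have hc₂ : Fermat.Agent.S35.H433.ValCtx w D.x V₀ := by
    rw [hDx]
    exact valCtx_of_gauss hwm hw0 (Mod.H13.isGaussOver_comap_xE hw hV hW hxtr)
  obtain ⟨G, hG0, hcv₁, hcv₂⟩ :=
    Fermat.Agent.S35.H433.exists_constV_of_gSplitV w D.x D.Bf hCf cf V V₀ hc₁ hc₂ hne hgs₁ hgs₂
  set y' : Mod.FE E (M' * p) := y * (H ^ p)⁻¹ * (G ^ p)⁻¹ with hy'
  have hsf : IsSplit D.Bf cf y' :=
    Fermat.Agent.S35.H433.isSplit_of_constV w D.x D.Bf hCf cf V V₀ hc₁ hc₂ hne hcv₁ hcv₂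
  have hsi : IsSplit D.Bi ci y' :=
    Fermat.Agent.S35.H433.isSplit_of_constV w D.x⁻¹ D.Bi hCi ci V V₀ hc₁.inv hc₂.inv hne
      hcv₁ hcv₂
  -- the Kummer function
  have hHG0 : T1.H669.iota E (modularFunctionFieldFull (M' * p)) (H * G) ≠ 0 :=
    T1.H669.iota_ne_zero E _ (mul_ne_zero hH0 hG0)
  have hK : IsKummerGen (M' * p) p
      (T1.H669.iota E (modularFunctionFieldFull (M' * p)) y') x := by
    have e : T1.H669.iota E (modularFunctionFieldFull (M' * p)) y' =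
        f * ((T1.H669.iota E (modularFunctionFieldFull (M' * p)) (H * G)) ^ p)⁻¹ := by
      rw [hy', map_mul, map_mul, map_inv₀, map_inv₀, map_pow, map_pow, hy, map_mul, mul_pow,
        mul_inv, mul_assoc]
    rw [e]
    exact isKummerGen_mul_inv_pow hf hHG0
  have hy'0 : y' ≠ 0 := by
    rintro h0
    rw [h0, map_zero] at hK
    exact hK.1 rfl
  have hdiv : DivisibleDiv E p y' := by
    obtain ⟨-, Dv, -, hord⟩ := hK
    exact T1.H669.divisibleDiv_of_ord E (modularFunctionFieldFull (M' * p)) p y' hy'0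
      (fun v => ⟨_, hord v⟩)
  have hred : ∀ {B : Subalgebra (Mod.RE A E) (Mod.FE E (M' * p))} {𝔭 : Ideal B},
      ConstAt B 𝔭 y' → RedPowAt B 𝔭 p y' := by
    intro B 𝔭 h
    refine ⟨1, one_ne_zero, ?_⟩
    rw [one_pow, mul_one]
    exact h
  refine ⟨E, hE, D, w, y', cf, ci, ?_, hw, hK, hred hsf.1, hred hsf.2, hred hsi.1, hred hsi.2,
    ?_, ?_⟩
  · rw [hDx]
    rfl
  · intro n hn hwn
    exact Alg.H609.pureAt_of_isSplit p hp.pos w D.x D.Bf hCf cf y' hdiv hsf n hn.isPrime hwn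
  · intro n hn hwn
    exact Alg.H609.pureAt_of_isSplit p hp.pos w D.x⁻¹ D.Bi hCi ci y' hdiv hsi n hn.isPrime hwn

end Core

/-- **Leaf DICT** of `Ribet/H103/S2Spec.lean`: the classes of the split part are split-reduction
classes.  (`p ≥ 5`: no condition on `M'`; `p = 3`: `2 ∣ M'`; `p = 2`: `3 ∣ M'`.) -/
theorem dictFor (p M' : ℕ) [NeZero M'] [NeZero p] [NeZero (p * M')] (hp : p.Prime)
    (hpM : ¬ p ∣ M') (h3 : p = 3 → 2 ∣ M') (h2 : p = 2 → 3 ∣ M')
    (A : ValuationSubring Kbar) (hA : A.LiesOverPrime p) :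
    DictFor p M' A (splitPart p M' A) := by
  intro x hx _
  obtain ⟨f, hf, hs⟩ := Fermat.Agent.Ribet.H884.mem_splitSet_of_mem_splitPart hx
  obtain ⟨hinf, hzer⟩ := Fermat.Agent.Ribet.H573.splitGen_lift hp hpM hA hs
  exact splitRedClassAt_of_lift hp hpM h3 h2 hA (p * M') (Nat.mul_comm p M')
    (dvd_mul_right p M') x f hf hinf hzer

/-- **Leaf DICT for `p ≥ 5`.** -/
theorem dictFor_five (p M' : ℕ) [NeZero M'] [NeZero p] [NeZero (p * M')] (hp : p.Prime)
    (h5 : 5 ≤ p) (hpM : ¬ p ∣ M') (A : ValuationSubring Kbar) (hA : A.LiesOverPrime p) :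
    DictFor p M' A (splitPart p M' A) :=
  dictFor p M' hp hpM (fun h => by omega) (fun h => by omega) A hA

end Fermat.Agent.Ribet.H997

end
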