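import Fermat.Agent.A2.H48.TwoVal
import Fermat.Agent.S35.H433.ValForm

/-!
# Row 38, WALL-p, S2 leaf DICT — abstract part (helper997)

`F` a field, `V₁ ≠ V₂` valuation subrings with a common uniformiser `ϖ` (`A2.H48.IsUnif`).

* `exists_unit_pair`   : there is `π` with `v₁ π = 1`, `v₂ π = v₂ ϖ`;
* `exists_val_pair`    : for `a b : ℤ` there is `H ≠ 0` with `v₁ H = v₁ ϖ ^ a`, `v₂ H = v₂ ϖ ^ b`;
* `exists_gSplitV_pair`: if `y ∈ P₁ ^ p · (1 + 𝔪₁)` and `y ∈ P₂ ^ p · (1 + 𝔪₂)` with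
  `v₁ P₁ = v₁ ϖ ^ a`, `v₂ P₂ = v₂ ϖ ^ b`, then for some `H ≠ 0` the function `y / H ^ p` has
  residues in `(κˣ)^p` at `V₁` and at `V₂` (`S35.H433.GSplitV`, constant `1`).
-/

set_option autoImplicit false

namespace Fermat.Agent.Ribet.H997

open Fermat.Agent.A2 Fermat.Agent.S35.H433

section Abstract

variable {F : Type*} [Field F] {V₁ V₂ : ValuationSubring F} {ϖ : F}

theorem val_eq_one_iff (V : ValuationSubring F) (x : F) :
    V.valuation x = 1 ↔ x ≠ 0 ∧ x ∈ V ∧ x⁻¹ ∈ V := by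
  constructor
  · intro h
    have hx0 : x ≠ 0 := by
      rintro rfl
      rw [map_zero] at h
      exact zero_ne_one h
    refine ⟨hx0, (V.valuation_le_one_iff x).1 h.le, (V.valuation_le_one_iff _).1 ?_⟩
    rw [map_inv₀, h, inv_one]
  · rintro ⟨hx0, hx, hxi⟩
    have h1 : V.valuation x ≤ 1 := (V.valuation_le_one_iff x).2 hx
    have h2 : V.valuation x⁻¹ ≤ 1 := (V.valuation_le_one_iff _).2 hxi
    rw [map_inv₀] at h2
    have h3 : V.valuation x ≠ 0 := (Valuation.ne_zero_iff _).2 hx0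
    have h4 : 1 ≤ V.valuation x := by
      rwa [inv_le_one₀ (zero_lt_iff.2 h3)] at h2
    exact le_antisymm h1 h4

theorem val_eq_one_of_sub_one_nonunit (V : ValuationSubring F) {x : F}
    (h : x - 1 ∈ V.nonunits) : V.valuation x = 1 := by
  have h1 : V.valuation (x - 1) < 1 := V.mem_nonunits_iff.1 h
  have h2 := Valuation.map_one_add_of_lt (v := V.valuation) h1
  rwa [add_sub_cancel] at h2

/-- An element which is a unit at `V₁` and a uniformiser at `V₂`. -/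
theorem exists_unit_pair (h₁ : H48.IsUnif V₁ ϖ) (h₂ : H48.IsUnif V₂ ϖ) (hne : V₁ ≠ V₂) :
    ∃ π : F, V₁.valuation π = 1 ∧ V₂.valuation π = V₂.valuation ϖ := by
  obtain ⟨g, -, hg1, hg2⟩ := H48.exists_approx h₁ h₂ hne (f := 1) (one_mem _) (k := 0)
    (by rw [pow_zero, one_mul]; exact one_mem _)
  have hv1 : V₁.valuation (g - 1) < 1 := h₁.mul_inv_mem_iff.1 hg1
  have hg1' : V₁.valuation g = 1 := by
    have := Valuation.map_one_add_of_lt (v := V₁.valuation) hv1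
    rwa [add_sub_cancel] at this
  have hv2 : V₂.valuation g < 1 := h₂.mul_inv_mem_iff.1 hg2
  have hv2' : V₂.valuation g ≤ V₂.valuation ϖ := h₂.val_le_of_lt_one hv2
  rcases eq_or_lt_of_le hv2' with h | h
  · exact ⟨g, hg1', h⟩
  · refine ⟨g + ϖ, ?_, ?_⟩
    · have h3 : V₁.valuation ϖ < V₁.valuation g := by rw [hg1']; exact h₁.val_lt_one
      rw [add_comm, Valuation.map_add_eq_of_lt_right _ h3, hg1']
    · exact Valuation.map_add_eq_of_lt_right _ h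

/-- Prescribed valuations at two valuation rings with a common uniformiser. -/
theorem exists_val_pair (h₁ : H48.IsUnif V₁ ϖ) (h₂ : H48.IsUnif V₂ ϖ) (hne : V₁ ≠ V₂)
    (a b : ℤ) :
    ∃ H : F, H ≠ 0 ∧ V₁.valuation H = V₁.valuation ϖ ^ a ∧
      V₂.valuation H = V₂.valuation ϖ ^ b := by
  obtain ⟨π, hπ1, hπ2⟩ := exists_unit_pair h₁ h₂ hne
  have hπ0 : π ≠ 0 := ((val_eq_one_iff V₁ π).1 hπ1).1
  have hϖ0 : ϖ ≠ 0 := h₁.ne_zero
  refine ⟨ϖ ^ a * π ^ (b - a), mul_ne_zero (zpow_ne_zero _ hϖ0) (zpow_ne_zero _ hπ0), ?_, ?_⟩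
  · rw [map_mul, map_zpow₀, map_zpow₀, hπ1, one_zpow, mul_one]
  · rw [map_mul, map_zpow₀, map_zpow₀, hπ2, ← zpow_add₀ h₂.val_ne_zero]
    congr 1
    ring

/-- **Normalisation.**  If `y` is a `p`-th power times a `1`-unit at `V₁` and at `V₂`, with
`p`-th roots of discrete valuations `a`, `b`, then after division by a global `p`-th power the
residues of `y` at `V₁` and at `V₂` are `p`-th powers of units. -/
theorem exists_gSplitV_pair (R : Type*) [CommRing R] [Algebra R F]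
    (h₁ : H48.IsUnif V₁ ϖ) (h₂ : H48.IsUnif V₂ ϖ) (hne : V₁ ≠ V₂) (p : ℕ)
    {y P₁ P₂ : F} (a b : ℤ)
    (hP₁ : V₁.valuation P₁ = V₁.valuation ϖ ^ a) (hP₂ : V₂.valuation P₂ = V₂.valuation ϖ ^ b)
    (hy₁ : y * (P₁ ^ p)⁻¹ - 1 ∈ V₁.nonunits) (hy₂ : y * (P₂ ^ p)⁻¹ - 1 ∈ V₂.nonunits) :
    ∃ H : F, H ≠ 0 ∧ GSplitV R V₁ p (y * (H ^ p)⁻¹) ∧ GSplitV R V₂ p (y * (H ^ p)⁻¹) := by
  obtain ⟨H, hH0, hH1, hH2⟩ := exists_val_pair h₁ h₂ hne a b
  have key : ∀ (V : ValuationSubring F) (P : F), V.valuation P = V.valuation H →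
      y * (P ^ p)⁻¹ - 1 ∈ V.nonunits → GSplitV R V p (y * (H ^ p)⁻¹) := by
    intro V P hPH hy
    have hP0 : P ≠ 0 := by
      rintro rfl
      rw [map_zero] at hPH
      exact (Valuation.ne_zero_iff _).2 hH0 hPH.symm
    have hg : V.valuation (P * H⁻¹) = 1 := by
      rw [map_mul, map_inv₀, hPH]
      exact mul_inv_cancel₀ ((Valuation.ne_zero_iff _).2 hH0)
    obtain ⟨hg0, hgV, hgVi⟩ := (val_eq_one_iff V _).1 hg
    refine ⟨P * H⁻¹, hg0, hgV, hgVi, 1, isUnit_one, ?_⟩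
    have e : y * (H ^ p)⁻¹ * ((P * H⁻¹) ^ p)⁻¹ = y * (P ^ p)⁻¹ := by
      rw [mul_pow, inv_pow H]
      field_simp
    rw [e, map_one]
    exact hy
  exact ⟨H, hH0, key V₁ P₁ (by rw [hP₁, hH1]) hy₁, key V₂ P₂ (by rw [hP₂, hH2]) hy₂⟩

/-- `exists_gSplitV_pair` with the discrete valuations given in unit form. -/
theorem exists_gSplitV_pair_of_unit (R : Type*) [CommRing R] [Algebra R F]
    (h₁ : H48.IsUnif V₁ ϖ) (h₂ : H48.IsUnif V₂ ϖ) (hne : V₁ ≠ V₂) (p : ℕ)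
    {y P₁ P₂ : F} (a b : ℤ)
    (hP₁ : V₁.valuation (P₁ * (ϖ ^ a)⁻¹) = 1) (hP₂ : V₂.valuation (P₂ * (ϖ ^ b)⁻¹) = 1)
    (hy₁ : y * (P₁ ^ p)⁻¹ - 1 ∈ V₁.nonunits) (hy₂ : y * (P₂ ^ p)⁻¹ - 1 ∈ V₂.nonunits) :
    ∃ H : F, H ≠ 0 ∧ GSplitV R V₁ p (y * (H ^ p)⁻¹) ∧ GSplitV R V₂ p (y * (H ^ p)⁻¹) := by
  have key : ∀ (V : ValuationSubring F) (P : F) (n : ℤ), H48.IsUnif V ϖ →
      V.valuation (P * (ϖ ^ n)⁻¹) = 1 → V.valuation P = V.valuation ϖ ^ n := by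
    intro V P n hV h
    rw [map_mul, map_inv₀, map_zpow₀] at h
    exact (mul_inv_eq_one₀ (zpow_ne_zero _ hV.val_ne_zero)).1 h
  exact exists_gSplitV_pair R h₁ h₂ hne p a b (key V₁ P₁ a h₁ hP₁) (key V₂ P₂ b h₂ hP₂) hy₁ hy₂

/-- Units of a pulled-back valuation ring. -/
theorem val_comap_eq_one_iff (V : ValuationSubring F) (W : F →+* F) (z : F) :
    (V.comap W).valuation z = 1 ↔ V.valuation (W z) = 1 := by
  rw [val_eq_one_iff, val_eq_one_iff, ValuationSubring.mem_comap, ValuationSubring.mem_comap,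
    map_inv₀, map_ne_zero]

end Abstract

end Fermat.Agent.Ribet.H997
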