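import Fermat.Agent.Ribet.H997.RedField
import Fermat.Agent.Ribet.H997.DictVal
import Fermat.Agent.A2.Mod.H553.Fricke

/-!
# Row 38, WALL-p, S2 leaf DICT — level-`E` dictionary (helper997)

`E` a level with `R_E = A ∩ E` a discrete valuation ring, `V` the Gauss valuation ring of
`F_{N,E}` (`A2.Mod.IsVinf`), `w` a uniformiser of `R_E`.

* `exists_zpow_val`      : every `z ≠ 0` of `F_{N,E}` has `v_V z = v_V w ^ a`, `a : ℤ`;
* `sub_one_mem_nonunits_of_red` : if the series of `z` over `ℚ̄` is `U₁ / U₂` with `U₁, U₂`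
  `A`-integral, primitive, with THE SAME reduction, then `z - 1 ∈ 𝔪_V`
  (descent of "reduction `1`" from `ℚ̄` to the level `E`);
* `iotaN_fricke`         : every Fricke involution of level `E` induces `H528.wF` over `ℚ̄`.
-/

set_option autoImplicit false
set_option linter.unusedSectionVars false
set_option linter.style.haveILetI false
set_option synthInstance.maxHeartbeats 400000
set_option maxHeartbeats 1600000

noncomputable section

namespace Fermat.Agent.Ribet.H997

open AlgebraicCurve ModularCurve HahnSeries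
open Fermat.Agent.S24 Fermat.Agent.A2.H708 Fermat.Agent.A2.H528
open Fermat.Agent.A2 Fermat.Agent.A2.Mod Fermat.Agent.S18.H602

section Level

variable {A : ValuationSubring Kbar} {E : IntermediateField ℚ Kbar} {N : ℕ}

/-- A normal form with constant `1` gives a unit of `V`. -/
theorem val_eq_one_of_normal_form {V : ValuationSubring (Mod.FE E N)}
    (hV : Mod.IsVinf A E N V) (u : Mod.FE E N) {T₁ T₂ : LaurentSeries (Mod.RE A E)}
    (t₁ : red (Mod.RE A E) T₁ ≠ 0) (t₂ : red (Mod.RE A E) T₂ ≠ 0)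
    (hm₁ : incl (Mod.RE A E) T₁ ∈ laurentBaseChange E (modularFunctionFieldFull N))
    (hm₂ : incl (Mod.RE A E) T₂ ∈ laurentBaseChange E (modularFunctionFieldFull N))
    (he : (u : LaurentSeries E) * incl (Mod.RE A E) T₂ = incl (Mod.RE A E) T₁) :
    V.valuation u = 1 := by
  have hT₁0 : incl (Mod.RE A E) T₁ ≠ 0 :=
    incl_ne_zero (Mod.RE A E) (ne_zero_of_red_ne_zero (Mod.RE A E) t₁)
  have hu0 : (u : LaurentSeries E) ≠ 0 := by
    intro h0
    rw [h0, zero_mul] at he
    exact hT₁0 he.symm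
  have hu0' : u ≠ 0 := fun h => hu0 (by rw [h]; rfl)
  have huV : u ∈ V := (hV u).mpr ⟨T₁, T₂, t₂, hm₂, he⟩
  have hinv : ((u⁻¹ : Mod.FE E N) : LaurentSeries E) * incl (Mod.RE A E) T₁ =
      incl (Mod.RE A E) T₂ := by
    rw [IntermediateField.coe_inv, ← he]
    field_simp
  have huVi : u⁻¹ ∈ V := (hV u⁻¹).mpr ⟨T₂, T₁, t₁, hm₁, hinv⟩
  exact (val_eq_one_iff V u).2 ⟨hu0', huV, huVi⟩

/-- Units of `R_E` are units of `V`. -/
theorem val_algebraMap_unit {V : ValuationSubring (Mod.FE E N)}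
    (hV : Mod.IsVinf A E N V) (hN : N ≠ 0) (hdvr : IsDiscreteValuationRing (Mod.RE A E))
    {w : Mod.RE A E} (hw : Irreducible w) (ε : (Mod.RE A E)ˣ) :
    V.valuation (algebraMap E (Mod.FE E N) ((ε : Mod.RE A E) : E)) = 1 := by
  obtain ⟨-, hL, -⟩ := Mod.H553.vinfBasic A E w N hN hdvr hw V hV
  refine (val_eq_one_iff V _).2 ⟨?_, (hL _).2 (ε : Mod.RE A E).2, ?_⟩
  · rw [Ne, map_eq_zero]
    intro h0
    exact ε.ne_zero (Subtype.ext h0)
  · rw [← map_inv₀]
    have h1 : (((ε : Mod.RE A E) : E))⁻¹ = (((ε⁻¹ : (Mod.RE A E)ˣ) : Mod.RE A E) : E) := by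
      have h2 : (((ε : Mod.RE A E) : E)) * (((ε⁻¹ : (Mod.RE A E)ˣ) : Mod.RE A E) : E) = 1 := by
        exact congrArg (fun r : Mod.RE A E => (r : E)) ε.mul_inv
      exact inv_eq_of_mul_eq_one_right h2
    rw [h1]
    exact (hL _).2 ((ε⁻¹ : (Mod.RE A E)ˣ) : Mod.RE A E).2

/-- The valuation of a nonzero constant is a power of the valuation of `w`. -/
theorem exists_zpow_val_const {V : ValuationSubring (Mod.FE E N)}
    (hV : Mod.IsVinf A E N V) (hN : N ≠ 0) (hdvr : IsDiscreteValuationRing (Mod.RE A E))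
    {w : Mod.RE A E} (hw : Irreducible w) (c : E) (hc : c ≠ 0) :
    ∃ a : ℤ, V.valuation (algebraMap E (Mod.FE E N) c) =
      V.valuation (Mod.cE A E N w) ^ a := by
  haveI := hdvr
  have key : ∀ r : Mod.RE A E, r ≠ 0 → ∃ n : ℕ,
      V.valuation (algebraMap E (Mod.FE E N) (r : E)) = V.valuation (Mod.cE A E N w) ^ n := by
    intro r hr
    obtain ⟨n, ε, hε⟩ := IsDiscreteValuationRing.eq_unit_mul_pow_irreducible hr hw
    refine ⟨n, ?_⟩
    have h1 : (r : E) = ((ε : Mod.RE A E) : E) * (w : E) ^ n := by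
      have := congrArg (fun r : Mod.RE A E => (r : E)) hε
      simpa using this
    rw [h1, map_mul, map_pow, map_mul, map_pow, val_algebraMap_unit hV hN hdvr hw ε, one_mul]
    rfl
  rcases (Mod.RE A E).mem_or_inv_mem c with h | h
  · obtain ⟨n, hn⟩ := key ⟨c, h⟩ (fun h0 => hc (congrArg Subtype.val h0))
    exact ⟨n, by rw [zpow_natCast]; exact hn⟩
  · obtain ⟨n, hn⟩ := key ⟨c⁻¹, h⟩
      (fun h0 => inv_ne_zero hc (congrArg Subtype.val h0))
    refine ⟨-(n : ℤ), ?_⟩
    have h1 : V.valuation (algebraMap E (Mod.FE E N) c⁻¹) =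
        V.valuation (Mod.cE A E N w) ^ n := hn
    rw [map_inv₀, map_inv₀] at h1
    rw [zpow_neg, zpow_natCast, ← h1, inv_inv]

/-- **Discreteness of the Gauss valuation.** -/
theorem exists_zpow_val {V : ValuationSubring (Mod.FE E N)}
    (hV : Mod.IsVinf A E N V) (hN : N ≠ 0) (hdvr : IsDiscreteValuationRing (Mod.RE A E))
    {w : Mod.RE A E} (hw : Irreducible w) (z : Mod.FE E N) (hz : z ≠ 0) :
    ∃ a : ℤ, V.valuation z = V.valuation (Mod.cE A E N w) ^ a := by
  haveI := hdvr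
  have hz0 : (z : LaurentSeries E) ≠ 0 := fun h => hz (Subtype.ext h)
  obtain ⟨c, T₁, T₂, hc, t₁, t₂, hm₁, hm₂, he⟩ :=
    exists_normal_form (A := Mod.RE A E) (intGen_full N)
      (attainsMax_of_isNoetherianRing (Mod.RE A E) (modularFunctionFieldFull N)) z.2 hz0
  set u : Mod.FE E N := z * (algebraMap E (Mod.FE E N) c)⁻¹ with hu
  have hu_coe : (u : LaurentSeries E) = (z : LaurentSeries E) * (cst c)⁻¹ := by
    rw [hu, IntermediateField.coe_mul, IntermediateField.coe_inv]
    rfl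
  have hu_ser : (u : LaurentSeries E) * incl (Mod.RE A E) T₂ = incl (Mod.RE A E) T₁ := by
    rw [hu_coe, mul_right_comm, he, mul_right_comm, mul_inv_cancel₀ (cst_ne_zero hc), one_mul]
  have h1 := val_eq_one_of_normal_form hV u t₁ t₂ hm₁ hm₂ hu_ser
  obtain ⟨a, ha⟩ := exists_zpow_val_const hV hN hdvr hw c hc
  refine ⟨a, ?_⟩
  have hc0 : algebraMap E (Mod.FE E N) c ≠ 0 := by
    rwa [Ne, map_eq_zero]
  have hzu : z = u * algebraMap E (Mod.FE E N) c := by
    rw [hu, mul_assoc, inv_mul_cancel₀ hc0, mul_one]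
  rw [hzu, map_mul, h1, one_mul, ha]

/-- **Descent of "reduction `1`".**  If over `ℚ̄` the series of `z ∈ F_{N,E}` is a quotient of
two `A`-integral primitive series with the same reduction, then `z ∈ 1 + 𝔪_V`. -/
theorem sub_one_mem_nonunits_of_red {V : ValuationSubring (Mod.FE E N)}
    (hV : Mod.IsVinf A E N V) (hdvr : IsDiscreteValuationRing (Mod.RE A E))
    (z : Mod.FE E N) {U₁ U₂ : LaurentSeries A} (h₂ : red A U₂ ≠ 0)
    (h12 : red A U₁ = red A U₂)
    (he : coeffMap (algebraMap E Kbar) (z : LaurentSeries E) * incl A U₂ = incl A U₁) :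
    z - 1 ∈ V.nonunits := by
  haveI := hdvr
  have h₁ : red A U₁ ≠ 0 := h12 ▸ h₂
  have hz0 : (z : LaurentSeries E) ≠ 0 := by
    intro h0
    rw [h0, map_zero, zero_mul] at he
    exact incl_ne_zero A (ne_zero_of_red_ne_zero A h₁) he.symm
  obtain ⟨c, T₁, T₂, hc, t₁, t₂, hm₁, hm₂, hT⟩ :=
    exists_normal_form (A := Mod.RE A E) (intGen_full N)
      (attainsMax_of_isNoetherianRing (Mod.RE A E) (modularFunctionFieldFull N)) z.2 hz0
  -- the normal form over `ℚ̄`
  have hTK : coeffMap (algebraMap E Kbar) (z : LaurentSeries E) * incl A (upA A E T₂) =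
      cst (algebraMap E Kbar c) * incl A (upA A E T₁) := by
    have := congrArg (coeffMap (algebraMap E Kbar)) hT
    rw [map_mul, map_mul, coeffMap_algebraMap', ← incl_upA, ← incl_upA] at this
    exact this
  have t₁A := red_upA_ne_zero E t₁
  have t₂A := red_upA_ne_zero E t₂
  set x := coeffMap (algebraMap E Kbar) (z : LaurentSeries E) with hx
  set cK : Kbar := algebraMap E Kbar c with hcK
  have hcK0 : cK ≠ 0 := by
    rw [hcK, Ne, map_eq_zero_iff _ (algebraMap E Kbar).injective]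
    exact hc
  -- cross-multiplication: `U₁ · T₂ = c · T₁ · U₂`
  have hcross : cst cK * incl A (upA A E T₁ * U₂) = incl A (U₁ * upA A E T₂) := by
    rw [map_mul, map_mul, ← mul_assoc, ← hTK, ← he]
    ring
  have hcross' : cst cK⁻¹ * incl A (U₁ * upA A E T₂) = incl A (upA A E T₁ * U₂) := by
    rw [← hcross, ← mul_assoc, cst_inv_mul_cst hcK0, one_mul]
  have hp1 : red A (upA A E T₁ * U₂) ≠ 0 := by rw [map_mul]; exact mul_ne_zero t₁A h₂
  have hp2 : red A (U₁ * upA A E T₂) ≠ 0 := by rw [map_mul]; exact mul_ne_zero h₁ t₂A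
  have hcA : cK ∈ A := mem_of_cst_mul_prim A hp1 hcross
  have hciA : cK⁻¹ ∈ A := mem_of_cst_mul_prim A hp2 hcross'
  -- the constant as a unit of `R_E`
  have hcR : c ∈ Mod.RE A E := hcA
  have hciR : c⁻¹ ∈ Mod.RE A E := by
    show algebraMap E Kbar c⁻¹ ∈ A
    rw [map_inv₀]
    exact hciA
  set cR : Mod.RE A E := ⟨c, hcR⟩ with hcR_def
  -- `S = c T₁ - T₂` has zero reduction
  set S : LaurentSeries (Mod.RE A E) := cstA (Mod.RE A E) cR * T₁ - T₂ with hS
  have hSeq : ((z - 1 : Mod.FE E N) : LaurentSeries E) * incl (Mod.RE A E) T₂ =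
      incl (Mod.RE A E) S := by
    have h1 : ((z - 1 : Mod.FE E N) : LaurentSeries E) = (z : LaurentSeries E) - 1 := rfl
    rw [h1, sub_mul, one_mul, hT, hS, map_sub, map_mul, incl_cstA]
  have hSA : red A (upA A E S) = 0 := by
    have e1 : upA A E S = cstA A (toA' A E cR) * upA A E T₁ - upA A E T₂ := by
      rw [hS, map_sub, map_mul, upA_cstA]
    have e2 : incl A (cstA A (toA' A E cR) * (upA A E T₁ * U₂)) = incl A (U₁ * upA A E T₂) := by
      rw [map_mul (incl A), incl_cstA]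
      exact hcross
    have e3 := congrArg (red A) (incl_injective A e2)
    rw [map_mul, map_mul, map_mul, h12] at e3
    have e4 : (red A (cstA A (toA' A E cR)) * red A (upA A E T₁) - red A (upA A E T₂)) *
        red A U₂ = 0 := by
      rw [sub_mul, mul_assoc, e3]
      ring
    rw [e1, map_sub, map_mul]
    rcases mul_eq_zero.mp e4 with h | h
    · exact h
    · exact absurd h h₂
  have hS0 : red (Mod.RE A E) S = 0 := (red_upA_eq_zero_iff E S).mp hSA
  -- membership
  have hmem : z - 1 ∈ V := (hV (z - 1)).mpr ⟨S, T₂, t₂, hm₂, hSeq⟩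
  rw [ValuationSubring.mem_nonunits_iff_or]
  by_cases hz1 : z - 1 = 0
  · exact Or.inl hz1
  · right
    intro hinv
    obtain ⟨W₁, W₂, hW₂, -, heW⟩ := (hV (z - 1)⁻¹).mp hinv
    have hz1' : ((z - 1 : Mod.FE E N) : LaurentSeries E) ≠ 0 := fun h => hz1 (Subtype.ext h)
    have e1 : incl (Mod.RE A E) (W₂ * T₂) = incl (Mod.RE A E) (W₁ * S) := by
      rw [map_mul, map_mul, ← hSeq, ← heW, IntermediateField.coe_inv]
      field_simp
    have e2 := congrArg (red (Mod.RE A E)) (incl_injective (Mod.RE A E) e1)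
    rw [map_mul, map_mul, hS0, mul_zero] at e2
    rcases mul_eq_zero.mp e2 with h | h
    · exact hW₂ h
    · exact t₂ h

end Level

section Fricke

variable {E : IntermediateField ℚ Kbar} {N : ℕ} [NeZero N]

/-- Every Fricke involution of level `E` induces `H528.wF` over `ℚ̄`. -/
theorem iotaN_fricke {W : Mod.FE E N ≃ₐ[E] Mod.FE E N} (hW : Mod.IsFricke E N W)
    (z : Mod.FE E N) :
    Mod.H553.iotaN E N (W z) = wF N (Mod.H553.iotaN E N z) := by
  rw [Mod.H553.isFricke_unique E (NeZero.ne N) hW (Mod.H553.isFricke_wE E N)]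
  exact Mod.H553.iota_wE E N z

end Fricke

end Fermat.Agent.Ribet.H997

end
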